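import Mathlib
import Fermat.Prelude.Def_EllipticCurve_FrobeniusTrace

/-!
# S44 : shared definitions (interface between the elliptic side and the modular side)
-/

set_option autoImplicit false

namespace Fermat.Agent.S44

/-- `ℚ̄`. -/
abbrev Qb : Type := AlgebraicClosure ℚ

/-- `G_ℚ`. -/
abbrev GQ : Type := Qb ≃ₐ[ℚ] Qb

/-- `V` (a `G_ℚ`-module) is *très ramifiée* at the place `A` over `p`: there are `x, t ∈ V`,
`t ≠ 0`, `p t = 0`, and a Kummer generator `α` (`α^p` fixed by `I₁ = {σ ∈ I : σ ζ = ζ}`) whose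
`p`-th power has a valuation which is NOT a `p`-th power in the value group of the fixed field of
`I₁`, such that `σ x - x = c t`, `σ α = ζ^c α` for all `σ ∈ I₁`. -/
def TresRam (A : ValuationSubring Qb) (p : ℕ) (V : Type*) [AddCommGroup V]
    [DistribMulAction GQ V] : Prop :=
  ∃ (ζ α : Qb) (x t : V), IsPrimitiveRoot ζ p ∧ α ≠ 0 ∧ t ≠ 0 ∧ p • t = 0 ∧ p • x = 0 ∧
    (¬ ∃ b : Qb, (∀ σ ∈ A.inertiaSubgroupIn ℚ, σ ζ = ζ → σ b = b) ∧
      A.valuation (α ^ p) = A.valuation b ^ p) ∧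
    ∀ σ ∈ A.inertiaSubgroupIn ℚ, σ ζ = ζ → ∃ c : ℕ, σ • x - x = c • t ∧ σ α = ζ ^ c * α

/-- transport along an injective equivariant homomorphism. -/
theorem TresRam.map {A : ValuationSubring Qb} {p : ℕ} {V V' : Type*} [AddCommGroup V]
    [DistribMulAction GQ V] [AddCommGroup V'] [DistribMulAction GQ V'] (f : V →+ V')
    (hf : Function.Injective f) (hσ : ∀ (σ : GQ) (x : V), f (σ • x) = σ • f x)
    (h : TresRam A p V) : TresRam A p V' := by
  obtain ⟨ζ, α, x, t, hζ, hα, ht, hpt, hpx, hnd, hc⟩ := h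
  refine ⟨ζ, α, f x, f t, hζ, hα, ?_, ?_, ?_, hnd, ?_⟩
  · rwa [Ne, map_eq_zero_iff f hf]
  · rw [← map_nsmul, hpt, map_zero]
  · rw [← map_nsmul, hpx, map_zero]
  · intro σ hσI hσζ
    obtain ⟨c, h1, h2⟩ := hc σ hσI hσζ
    exact ⟨c, by rw [← hσ, ← map_sub, h1, map_nsmul], h2⟩

end Fermat.Agent.S44
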